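/-
S41, PAIR leaf (CS) (helper33's leaf table v2): for a cusp system `c` of `Γ`, an exponent `m > 0`
with `T ^ m` trivial on `Cos Γ`, and a function `κ : Γ → ℤ` that is conjugation invariant and
homogeneous on positive parabolic elements,
  `∑ x : Cos Γ, κ ((rep x)⁻¹ T^m rep x) = m * ∑ j, κ (c j)`.
(Orbit decomposition of `Cos Γ` under `T`: the fibres of "index of the cusp of `x`" are exactly
the `T`-orbits.)
-/
import Fermat.Agent.S41.H33.NormalForm
import Fermat.Agent.S41.H62.CuspSystem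

set_option autoImplicit false

open scoped MatrixGroups
open ModularGroup

namespace Fermat.Agent.S41.H57

open Fermat.Agent.S16.H97 Fermat.Agent.S41.H62

variable {Γ : Subgroup SL(2, ℤ)}

/-- `h⁻¹ T^k h ∈ Γ` iff `T^k` fixes the coset `h Γ`. -/
theorem conj_T_pow_mem_iff (h : SL(2, ℤ)) (k : ℕ) :
    h⁻¹ * T ^ k * h ∈ Γ ↔ T ^ k • (h • base Γ) = h • base Γ := by
  constructor
  · intro hmem
    have := smul_base_of_mem hmem
    rw [mul_smul, mul_smul, inv_smul_eq_iff] at this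
    exact this
  · intro hfix
    apply mem_of_smul_base
    rw [mul_smul, mul_smul, hfix, inv_smul_smul]

/-- **(CS)** The uniform sum over all cosets of the values of `κ` at the conjugates of `T ^ m`
is `m` times the sum of `κ` over a cusp system. -/
theorem cusp_sum [Fintype (Cos Γ)] (hneg : (-1 : SL(2, ℤ)) ∈ Γ) {J : Type*} [Fintype J]
    {c : J → SL(2, ℤ)} (hc : IsCuspSystem Γ c) (m : ℕ) (hm0 : 0 < m)
    (hm : ∀ x : Cos Γ, T ^ m • x = x) (κ : Γ → ℤ)
    (hconj : ∀ π s : Γ, IsPosPar (π : SL(2, ℤ)) → κ (s * π * s⁻¹) = κ π)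
    (hpow : ∀ π : Γ, IsPosPar (π : SL(2, ℤ)) → ∀ n : ℕ, κ (π ^ n) = n * κ π) :
    ∑ x : Cos Γ, κ ⟨(rep Γ x)⁻¹ * T ^ m * rep Γ x,
        Fermat.Agent.S41.H33.conj_mem_of_smul_eq (T ^ m) x (hm x)⟩ =
      m * ∑ j, κ ⟨c j, (hc.1 j).mem⟩ := by
  classical
  -- widths of the `T`-orbits
  set w : Cos Γ → ℕ := fun x => Function.minimalPeriod (fun y : Cos Γ => T • y) x with hw
  have hdvd : ∀ (k : ℕ) (x : Cos Γ), T ^ k • x = x ↔ w x ∣ k := fun k x =>
    MulAction.pow_smul_eq_iff_minimalPeriod_dvd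
  have hwm : ∀ x, w x ∣ m := fun x => (hdvd m x).mp (hm x)
  have hwpos : ∀ x, 0 < w x := fun x => Nat.pos_of_dvd_of_pos (hwm x) hm0
  have hfix : ∀ x, T ^ w x • x = x := fun x => (hdvd _ x).mpr dvd_rfl
  -- the primitive element attached to a coset
  have hpmem : ∀ x, (rep Γ x)⁻¹ * T ^ w x * rep Γ x ∈ Γ := fun x =>
    Fermat.Agent.S41.H33.conj_mem_of_smul_eq (T ^ w x) x (hfix x)
  have hppp : ∀ x, IsPPP Γ ((rep Γ x)⁻¹ * T ^ w x * rep Γ x) := by
    intro x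
    refine ⟨hpmem x, rep Γ x, w x, hwpos x, rfl, fun k hk hmem => ?_⟩
    have h1 := (conj_T_pow_mem_iff (rep Γ x) k).mp hmem
    rw [rep_smul_base] at h1
    exact Nat.le_of_dvd hk ((hdvd k x).mp h1)
  choose idx hidx using fun x => hc.2 _ (hppp x)
  have hidx1 : ∀ x, ∃ s ∈ Γ, (rep Γ x)⁻¹ * T ^ w x * rep Γ x = s * c (idx x) * s⁻¹ :=
    fun x => (hidx x).1
  have hidx2 : ∀ x y, (∃ s ∈ Γ, (rep Γ x)⁻¹ * T ^ w x * rep Γ x = s * c y * s⁻¹) → y = idx x :=
    fun x y => (hidx x).2 y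
  -- Step A: each term
  have hterm : ∀ x : Cos Γ, κ ⟨(rep Γ x)⁻¹ * T ^ m * rep Γ x,
      Fermat.Agent.S41.H33.conj_mem_of_smul_eq (T ^ m) x (hm x)⟩ =
      ((m / w x : ℕ) : ℤ) * κ ⟨c (idx x), (hc.1 (idx x)).mem⟩ := by
    intro x
    have e1 : (⟨(rep Γ x)⁻¹ * T ^ m * rep Γ x,
        Fermat.Agent.S41.H33.conj_mem_of_smul_eq (T ^ m) x (hm x)⟩ : Γ) =
        (⟨(rep Γ x)⁻¹ * T ^ w x * rep Γ x, hpmem x⟩ : Γ) ^ (m / w x) := by
      apply Subtype.ext
      rw [Subgroup.coe_pow]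
      change (rep Γ x)⁻¹ * T ^ m * rep Γ x = ((rep Γ x)⁻¹ * T ^ w x * rep Γ x) ^ (m / w x)
      rw [conj_pow_pow, Nat.mul_div_cancel' (hwm x)]
    obtain ⟨s, hs, hs'⟩ := hidx1 x
    have e2 : (⟨(rep Γ x)⁻¹ * T ^ w x * rep Γ x, hpmem x⟩ : Γ) =
        (⟨s, hs⟩ : Γ) * ⟨c (idx x), (hc.1 (idx x)).mem⟩ * (⟨s, hs⟩ : Γ)⁻¹ := by
      apply Subtype.ext
      exact hs'
    rw [e1, hpow _ (hppp x).isPosPar, e2, hconj _ _ (hc.1 (idx x)).isPosPar]
  -- invariance of `w` and `idx` along `T`-orbits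
  have hw_orb : ∀ (x : Cos Γ) (e : ℤ), w (T ^ e • x) = w x := by
    intro x e
    have key : ∀ k : ℕ, T ^ k • (T ^ e • x) = T ^ e • x ↔ T ^ k • x = x := by
      intro k
      rw [← mul_smul, ← zpow_natCast, ← zpow_add, add_comm, zpow_add, mul_smul, zpow_natCast]
      exact smul_left_cancel_iff _
    exact Nat.dvd_antisymm ((hdvd _ _).mp ((key _).mpr (hfix x)))
      ((hdvd _ _).mp ((key _).mp (hfix _)))
  have hidx_orb : ∀ (x : Cos Γ) (e : ℤ), idx (T ^ e • x) = idx x := by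
    intro x e
    set x' := T ^ e • x with hx'
    have hγ : (T ^ e * rep Γ x)⁻¹ * rep Γ x' ∈ Γ := by
      apply mem_of_smul_base
      rw [mul_smul, rep_smul_base, inv_smul_eq_iff, mul_smul, rep_smul_base]
    set γ := (T ^ e * rep Γ x)⁻¹ * rep Γ x' with hγdef
    have hrep : rep Γ x' = T ^ e * rep Γ x * γ := by
      rw [hγdef, mul_inv_cancel_left]
    obtain ⟨s, hs, hs'⟩ := hidx1 x
    refine (hidx2 x' (idx x) ⟨γ⁻¹ * s, Γ.mul_mem (Γ.inv_mem hγ) hs, ?_⟩).symm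
    rw [hw_orb x e, hrep, ← zpow_natCast, conj_T_zpow_mul, zpow_natCast, hs']
    simp only [mul_inv_rev, inv_inv, mul_assoc]
  -- injectivity: equal index implies same orbit
  have horb : ∀ x x₀ : Cos Γ, idx x = idx x₀ → ∃ e : ℤ, x = T ^ e • x₀ := by
    intro x x₀ hxx
    obtain ⟨s, hs, hs'⟩ := hidx1 x
    obtain ⟨s₀, hs₀, hs₀'⟩ := hidx1 x₀
    rw [hxx] at hs'
    have hcj : c (idx x₀) = s₀⁻¹ * ((rep Γ x₀)⁻¹ * T ^ w x₀ * rep Γ x₀) * s₀ := by
      rw [hs₀']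
      simp only [mul_assoc, inv_mul_cancel_left, inv_mul_cancel, mul_one]
    have H : (rep Γ x)⁻¹ * T ^ (w x : ℤ) * rep Γ x =
        (rep Γ x₀ * (s₀ * s⁻¹))⁻¹ * T ^ (w x₀ : ℤ) * (rep Γ x₀ * (s₀ * s⁻¹)) := by
      rw [zpow_natCast, zpow_natCast, hs', hcj]
      simp only [mul_inv_rev, inv_inv, mul_assoc]
    have hpos : (0 : ℤ) < (w x₀ : ℤ) := by exact_mod_cast hwpos x₀
    obtain ⟨-, e, z, hz, he⟩ := exists_eq_T_zpow_mul_of_conj_eq hneg hpos H
    refine ⟨-e, ?_⟩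
    have h1 : x₀ = T ^ e • x := by
      have h2 : (rep Γ x₀ * (s₀ * s⁻¹)) • base Γ = x₀ := by
        rw [mul_smul, smul_base_of_mem (Γ.mul_mem hs₀ (Γ.inv_mem hs)), rep_smul_base]
      rw [← h2, he, mul_smul, mul_smul, smul_base_of_mem hz, rep_smul_base]
    rw [h1, ← mul_smul, ← zpow_add, neg_add_cancel, zpow_zero, one_smul]
  -- surjectivity: every index is attained
  have hsurj : ∀ j, ∃ x₀, idx x₀ = j := by
    intro j
    obtain ⟨hcΓ, h, w', hw', hcj, hmin⟩ := hc.1 j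
    refine ⟨h • base Γ, ?_⟩
    set x₀ := h • base Γ with hx₀
    have hww : w x₀ = w' := by
      refine le_antisymm (Nat.le_of_dvd hw' ((hdvd w' x₀).mp ?_)) (hmin _ (hwpos x₀) ?_)
      · exact (conj_T_pow_mem_iff h w').mp (hcj ▸ hcΓ)
      · exact (conj_T_pow_mem_iff h (w x₀)).mpr (hfix x₀)
    have hγ : h⁻¹ * rep Γ x₀ ∈ Γ := by
      apply mem_of_smul_base
      rw [mul_smul, rep_smul_base, inv_smul_eq_iff]
    refine (hidx2 x₀ j ⟨(h⁻¹ * rep Γ x₀)⁻¹, Γ.inv_mem hγ, ?_⟩).symm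
    rw [hww, hcj]
    simp only [mul_inv_rev, inv_inv, mul_assoc, mul_inv_cancel_left]
  -- Step C: the fibre sums
  have hfibre : ∀ j, ∑ x ∈ Finset.univ.filter (fun x => idx x = j), m / w x = m := by
    intro j
    obtain ⟨x₀, hx₀⟩ := hsurj j
    have hset : Finset.univ.filter (fun x => idx x = j) =
        (Finset.range (w x₀)).image (fun i : ℕ => T ^ i • x₀) := by
      ext x
      simp only [Finset.mem_filter, Finset.mem_univ, true_and, Finset.mem_image,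
        Finset.mem_range]
      constructor
      · intro hx
        obtain ⟨e, he⟩ := horb x x₀ (hx.trans hx₀.symm)
        have hwZ : (0 : ℤ) < (w x₀ : ℤ) := by exact_mod_cast hwpos x₀
        have hr0 : 0 ≤ e % (w x₀ : ℤ) := Int.emod_nonneg _ hwZ.ne'
        have hr1 : e % (w x₀ : ℤ) < w x₀ := Int.emod_lt_of_pos _ hwZ
        refine ⟨(e % (w x₀ : ℤ)).toNat, by omega, ?_⟩
        rw [he, ← zpow_natCast, Int.toNat_of_nonneg hr0]
        exact MulAction.zpow_smul_mod_minimalPeriod T x₀ e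
      · rintro ⟨i, -, rfl⟩
        rw [← zpow_natCast, hidx_orb, hx₀]
    have hinj : Set.InjOn (fun i : ℕ => T ^ i • x₀) (Finset.range (w x₀) : Set ℕ) := by
      have aux : ∀ a b : ℕ, a < b → b < w x₀ → T ^ a • x₀ ≠ T ^ b • x₀ := by
        intro a b hab hb heq
        have h1 : T ^ b = T ^ a * T ^ (b - a) := by
          rw [← pow_add]; congr 1; omega
        rw [h1, mul_smul] at heq
        have h2 : T ^ (b - a) • x₀ = x₀ := (smul_left_cancel _ heq).symm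
        have := Nat.le_of_dvd (by omega) ((hdvd _ _).mp h2)
        omega
      intro a ha b hb hab
      simp only [Finset.coe_range, Set.mem_Iio] at ha hb
      rcases lt_trichotomy a b with h | h | h
      · exact absurd hab (aux a b h hb)
      · exact h
      · exact absurd hab.symm (aux b a h ha)
    rw [hset, Finset.sum_image hinj]
    have hconst : ∀ i ∈ Finset.range (w x₀), m / w (T ^ i • x₀) = m / w x₀ := by
      intro i _
      rw [← zpow_natCast, hw_orb]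
    rw [Finset.sum_congr rfl hconst, Finset.sum_const, Finset.card_range, smul_eq_mul,
      Nat.mul_div_cancel' (hwm x₀)]
  -- Step B: assemble
  rw [Finset.sum_congr rfl fun x _ => hterm x,
    ← Finset.sum_fiberwise (s := Finset.univ) (g := idx)
      (f := fun x => ((m / w x : ℕ) : ℤ) * κ ⟨c (idx x), (hc.1 (idx x)).mem⟩),
    Finset.mul_sum]
  refine Finset.sum_congr rfl fun j _ => ?_
  have h1 : ∀ x ∈ Finset.univ.filter (fun x => idx x = j),
      ((m / w x : ℕ) : ℤ) * κ ⟨c (idx x), (hc.1 (idx x)).mem⟩ =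
        ((m / w x : ℕ) : ℤ) * κ ⟨c j, (hc.1 j).mem⟩ := by
    intro x hx
    have hxj : idx x = j := (Finset.mem_filter.mp hx).2
    subst hxj
    rfl
  rw [Finset.sum_congr rfl h1, ← Finset.sum_mul, ← Nat.cast_sum, hfibre j]

end Fermat.Agent.S41.H57
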