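/-
S41, PAIR sub-leaf (S2): the Heisenberg lift over `PSL(2,ℤ) = C₂ * C₃` and the evaluation of the
resulting `κ₀` at cusp generators (helper33's PAIR spec, central theorem (D4)).

Conventions are those of the landed `Fermat.Agent.S16.H97` (left cosets `Cos Γ = SL(2,ℤ) ⧸ Γ`,
`IsCoc Γ c : c (g * h) x = c g (h • x) + c h x`, `U = S * T`).
-/
import Fermat.Prelude.Def_ModularCurve_PeriodMap
import Fermat.Agent.S16.H97.Lift

set_option autoImplicit false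

open scoped MatrixGroups
open ModularGroup
open ModularCurve.Period (IsParabolicHom)

namespace Fermat.Agent.S41.H57

open Fermat.Agent.S16.H97

noncomputable section

variable {Γ : Subgroup SL(2, ℤ)} {A : Type*} [CommRing A]

/-! ### Cocycles with torsion-free coefficients vanish at `-1` -/

theorem coc_neg_one [IsAddTorsionFree A] (hneg : (-1 : SL(2, ℤ)) ∈ Γ)
    {c : SL(2, ℤ) → Cos Γ → A} (hc : IsCoc Γ c) (x : Cos Γ) : c (-1) x = 0 := by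
  have h := hc (-1) (-1) x
  rw [show (-1 : SL(2, ℤ)) * -1 = 1 by simp, hc.one, neg_one_smul_cos hneg] at h
  have h2 : (2 : ℕ) • c (-1) x = 0 := by rw [two_nsmul]; exact h.symm
  exact (nsmul_eq_zero_iff_right two_ne_zero).mp h2

theorem coc_S_S [IsAddTorsionFree A] (hneg : (-1 : SL(2, ℤ)) ∈ Γ)
    {c : SL(2, ℤ) → Cos Γ → A} (hc : IsCoc Γ c) (x : Cos Γ) : c S (S • x) + c S x = 0 := by
  rw [← hc S S x, S_mul_S, coc_neg_one hneg hc]

theorem coc_U_U_U [IsAddTorsionFree A] (hneg : (-1 : SL(2, ℤ)) ∈ Γ)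
    {c : SL(2, ℤ) → Cos Γ → A} (hc : IsCoc Γ c) (x : Cos Γ) :
    c U (U • U • x) + c U (U • x) + c U x = 0 := by
  have h := hc (U * U) U x
  rw [hc U U (U • x), show U * U * U = U ^ 3 by rw [pow_succ, pow_two], U_cube,
    coc_neg_one hneg hc] at h
  exact h.symm

/-! ### The Heisenberg action -/

/-- The permutation `(x, t₁, t₂, z) ↦ (g x, t₁ + v₁ x, t₂ + v₂ x, z + ζ x + t₁ * v₂ x)`. -/
def heis (g : SL(2, ℤ)) (v₁ v₂ z : Cos Γ → A) : Equiv.Perm (Cos Γ × A × A × A) where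
  toFun p := (g • p.1, p.2.1 + v₁ p.1, p.2.2.1 + v₂ p.1, p.2.2.2 + z p.1 + p.2.1 * v₂ p.1)
  invFun p := (g⁻¹ • p.1, p.2.1 - v₁ (g⁻¹ • p.1), p.2.2.1 - v₂ (g⁻¹ • p.1),
    p.2.2.2 - z (g⁻¹ • p.1) - (p.2.1 - v₁ (g⁻¹ • p.1)) * v₂ (g⁻¹ • p.1))
  left_inv p := by
    rcases p with ⟨x, t₁, t₂, t₃⟩
    simp only [inv_smul_smul, add_sub_cancel_right, Prod.mk.injEq, true_and]
    ring
  right_inv p := by
    rcases p with ⟨x, t₁, t₂, t₃⟩
    simp only [smul_inv_smul, sub_add_cancel, Prod.mk.injEq, true_and]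
    ring

theorem heis_apply (g : SL(2, ℤ)) (v₁ v₂ z : Cos Γ → A) (p : Cos Γ × A × A × A) :
    heis g v₁ v₂ z p =
      (g • p.1, p.2.1 + v₁ p.1, p.2.2.1 + v₂ p.1, p.2.2.2 + z p.1 + p.2.1 * v₂ p.1) := rfl

theorem heis_mul (g h : SL(2, ℤ)) (v₁ v₂ z w₁ w₂ e : Cos Γ → A) :
    heis g v₁ v₂ z * heis h w₁ w₂ e =
      heis (g * h) (fun x => v₁ (h • x) + w₁ x) (fun x => v₂ (h • x) + w₂ x)
        (fun x => z (h • x) + e x + w₁ x * v₂ (h • x)) := by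
  refine Equiv.ext fun p => ?_
  rcases p with ⟨x, t₁, t₂, t₃⟩
  rw [Equiv.Perm.mul_apply, heis_apply, heis_apply, heis_apply]
  refine Prod.ext (mul_smul g h x).symm (Prod.ext ?_ (Prod.ext ?_ ?_))
  · change t₁ + w₁ x + v₁ (h • x) = t₁ + (v₁ (h • x) + w₁ x)
    abel
  · change t₂ + w₂ x + v₂ (h • x) = t₂ + (v₂ (h • x) + w₂ x)
    abel
  · change t₃ + e x + t₁ * w₂ x + z (h • x) + (t₁ + w₁ x) * v₂ (h • x) =
      t₃ + (z (h • x) + e x + w₁ x * v₂ (h • x)) + t₁ * (v₂ (h • x) + w₂ x)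
    ring

theorem heis_one : heis (1 : SL(2, ℤ)) (0 : Cos Γ → A) 0 0 = 1 := by
  refine Equiv.ext fun p => ?_
  rcases p with ⟨x, t₁, t₂, t₃⟩
  rw [heis_apply]
  simp

theorem heis_neg_one (hneg : (-1 : SL(2, ℤ)) ∈ Γ) :
    heis (-1 : SL(2, ℤ)) (0 : Cos Γ → A) 0 0 = 1 := by
  refine Equiv.ext fun p => ?_
  rcases p with ⟨x, t₁, t₂, t₃⟩
  rw [heis_apply, neg_one_smul_cos hneg]
  simp

theorem heis_inv (g : SL(2, ℤ)) (v₁ v₂ z : Cos Γ → A) :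
    (heis g v₁ v₂ z)⁻¹ = heis g⁻¹ (fun x => - v₁ (g⁻¹ • x)) (fun x => - v₂ (g⁻¹ • x))
      (fun x => - z (g⁻¹ • x) + v₁ (g⁻¹ • x) * v₂ (g⁻¹ • x)) := by
  rw [inv_eq_iff_mul_eq_one, heis_mul]
  have h1 : (fun x : Cos Γ => v₁ (g⁻¹ • x) + -v₁ (g⁻¹ • x)) = 0 := by funext x; simp
  have h2 : (fun x : Cos Γ => v₂ (g⁻¹ • x) + -v₂ (g⁻¹ • x)) = 0 := by funext x; simp
  have h3 : (fun x : Cos Γ => z (g⁻¹ • x) + (-z (g⁻¹ • x) + v₁ (g⁻¹ • x) * v₂ (g⁻¹ • x)) +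
      -v₁ (g⁻¹ • x) * v₂ (g⁻¹ • x)) = 0 := by funext x; simp
  rw [h1, h2, h3, mul_inv_cancel, heis_one]

theorem heis_injective (g : SL(2, ℤ)) {v₁ v₂ z w₁ w₂ e : Cos Γ → A}
    (h : heis g v₁ v₂ z = heis g w₁ w₂ e) : v₁ = w₁ ∧ v₂ = w₂ ∧ z = e := by
  refine ⟨?_, ?_, ?_⟩
  · funext x
    have := congrArg (fun q : Cos Γ × A × A × A => q.2.1)
      (DFunLike.congr_fun h (x, (0 : A), (0 : A), (0 : A)))
    simpa [heis_apply] using this
  · funext x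
    have := congrArg (fun q : Cos Γ × A × A × A => q.2.2.1)
      (DFunLike.congr_fun h (x, (0 : A), (0 : A), (0 : A)))
    simpa [heis_apply] using this
  · funext x
    have := congrArg (fun q : Cos Γ × A × A × A => q.2.2.2)
      (DFunLike.congr_fun h (x, (0 : A), (0 : A), (0 : A)))
    simpa [heis_apply] using this

/-! ### The Heisenberg lift -/

/-- `ζ` is a "twisted kappa" for the pair of cocycles `(c₁, c₂)`. -/
def IsZeta (c₁ c₂ ζ : SL(2, ℤ) → Cos Γ → A) : Prop :=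
  ∀ g h x, ζ (g * h) x = ζ g (h • x) + ζ h x + c₁ h x * c₂ g (h • x)

/-- **Heisenberg lift.**  If `c₂ U = 0` and `c₂ S = Q ∘ S - Q`, the pair `(c₁, c₂)` has a
twisted kappa `ζ` with `ζ S x = c₁ S x * Q (S x)` and `ζ U = 0`. -/
theorem exists_zeta [IsAddTorsionFree A] (hneg : (-1 : SL(2, ℤ)) ∈ Γ)
    {c₁ c₂ : SL(2, ℤ) → Cos Γ → A} (hc₁ : IsCoc Γ c₁) (hc₂ : IsCoc Γ c₂) (Q : Cos Γ → A)
    (h2U : ∀ x, c₂ U x = 0) (hQ : ∀ x, c₂ S x = Q (S • x) - Q x) :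
    ∃ ζ : SL(2, ℤ) → Cos Γ → A, IsZeta c₁ c₂ ζ ∧ (∀ x, ζ S x = c₁ S x * Q (S • x)) ∧
      ∀ x, ζ U x = 0 := by
  set zS : Cos Γ → A := fun x => c₁ S x * Q (S • x) with hzS
  have hc2U : c₂ U = 0 := funext h2U
  have hs : (heis S (c₁ S) (c₂ S) zS : Equiv.Perm (Cos Γ × A × A × A)) ^ 2 = 1 := by
    rw [pow_two, heis_mul, S_mul_S]
    have e1 : (fun x : Cos Γ => c₁ S (S • x) + c₁ S x) = 0 := by
      funext x; exact coc_S_S hneg hc₁ x
    have e2 : (fun x : Cos Γ => c₂ S (S • x) + c₂ S x) = 0 := by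
      funext x; exact coc_S_S hneg hc₂ x
    have e3 : (fun x : Cos Γ => zS (S • x) + zS x + c₁ S x * c₂ S (S • x)) = 0 := by
      funext x
      have hP : c₁ S (S • x) = - c₁ S x := eq_neg_of_add_eq_zero_left (coc_S_S hneg hc₁ x)
      change c₁ S (S • x) * Q (S • S • x) + c₁ S x * Q (S • x) + c₁ S x * c₂ S (S • x) = 0
      rw [hP, hQ (S • x), S_smul_S_smul hneg]
      ring
    rw [e1, e2, e3, heis_neg_one hneg]
  have hu : (heis U (c₁ U) (c₂ U) 0 : Equiv.Perm (Cos Γ × A × A × A)) ^ 3 = 1 := by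
    rw [pow_succ, pow_two, heis_mul, heis_mul, show U * U * U = U ^ 3 by rw [pow_succ, pow_two],
      U_cube, hc2U]
    have e1 : (fun x : Cos Γ => c₁ U (U • U • x) + c₁ U (U • x) + c₁ U x) = 0 := by
      funext x; exact coc_U_U_U hneg hc₁ x
    have e1' : (fun x : Cos Γ => (fun x => c₁ U (U • x) + c₁ U x) (U • x) + c₁ U x) = 0 := e1
    have e2 : (fun x : Cos Γ => (fun x => (0 : Cos Γ → A) (U • x) + (0 : Cos Γ → A) x) (U • x) +
        (0 : Cos Γ → A) x) = 0 := by funext x; simp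
    have e3 : (fun x : Cos Γ =>
        (fun x => (0 : Cos Γ → A) (U • x) + (0 : Cos Γ → A) x + c₁ U x * (0 : Cos Γ → A) (U • x))
          (U • x) + (0 : Cos Γ → A) x +
        c₁ U x * (fun x => (0 : Cos Γ → A) (U • x) + (0 : Cos Γ → A) x) (U • x)) = 0 := by
      funext x; simp
    rw [e1', e2, e3, heis_neg_one hneg]
  obtain ⟨Φ, hΦS, hΦU⟩ := exists_monoidHom_S_ST (heis S (c₁ S) (c₂ S) zS)
    (heis U (c₁ U) (c₂ U) 0) hs hu
  have key : ∀ g : SL(2, ℤ), ∃ z : Cos Γ → A, Φ g = heis g (c₁ g) (c₂ g) z := by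
    intro g
    have hg : g ∈ Subgroup.closure ({S, U} : Set SL(2, ℤ)) := by rw [closure_S_U]; trivial
    induction hg using Subgroup.closure_induction with
    | mem x hx =>
      rcases hx with rfl | rfl
      · exact ⟨zS, hΦS⟩
      · exact ⟨0, hΦU⟩
    | one =>
      refine ⟨0, ?_⟩
      have e1 : c₁ 1 = 0 := funext fun x => hc₁.one x
      have e2 : c₂ 1 = 0 := funext fun x => hc₂.one x
      rw [map_one, e1, e2, heis_one]
    | mul x y _ _ hx hy =>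
      obtain ⟨v, hv⟩ := hx
      obtain ⟨w, hw⟩ := hy
      refine ⟨fun t => v (y • t) + w t + c₁ y t * c₂ x (y • t), ?_⟩
      rw [map_mul, hv, hw, heis_mul]
      have e1 : c₁ (x * y) = fun t => c₁ x (y • t) + c₁ y t := funext fun t => hc₁ x y t
      have e2 : c₂ (x * y) = fun t => c₂ x (y • t) + c₂ y t := funext fun t => hc₂ x y t
      rw [e1, e2]
    | inv x _ hx =>
      obtain ⟨v, hv⟩ := hx
      refine ⟨fun t => - v (x⁻¹ • t) + c₁ x (x⁻¹ • t) * c₂ x (x⁻¹ • t), ?_⟩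
      rw [map_inv, hv, heis_inv]
      have e1 : c₁ x⁻¹ = fun t => - c₁ x (x⁻¹ • t) := funext fun t => hc₁.inv x t
      have e2 : c₂ x⁻¹ = fun t => - c₂ x (x⁻¹ • t) := funext fun t => hc₂.inv x t
      rw [e1, e2]
  choose ζ hζ using key
  refine ⟨ζ, ?_, ?_, ?_⟩
  · intro g h x
    have h1 := hζ (g * h)
    rw [map_mul, hζ g, hζ h, heis_mul] at h1
    have e1 : c₁ (g * h) = fun t => c₁ g (h • t) + c₁ h t := funext fun t => hc₁ g h t
    have e2 : c₂ (g * h) = fun t => c₂ g (h • t) + c₂ h t := funext fun t => hc₂ g h t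
    rw [e1, e2] at h1
    exact (congrFun (heis_injective _ h1).2.2 x).symm
  · intro x
    exact congrFun (heis_injective S ((hζ S).symm.trans hΦS)).2.2 x
  · intro x
    exact congrFun (heis_injective U ((hζ U).symm.trans hΦU)).2.2 x

/-! ### Consequences of the twisted kappa identity -/

namespace IsZeta

variable {c₁ c₂ ζ : SL(2, ℤ) → Cos Γ → A}

theorem one (hζ : IsZeta c₁ c₂ ζ) (hc₁ : IsCoc Γ c₁) (x : Cos Γ) : ζ 1 x = 0 := by
  have h := hζ 1 1 x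
  rw [mul_one, one_smul, hc₁.one, zero_mul, add_zero] at h
  have h2 : ζ 1 x + 0 = ζ 1 x + ζ 1 x := by rw [add_zero]; exact h
  exact (add_left_cancel h2).symm

/-- Along powers of `T` the twisted kappa is additive, provided `c₁ T = 0`. -/
theorem T_pow (hζ : IsZeta c₁ c₂ ζ) (hc₁ : IsCoc Γ c₁) (h1T : ∀ x, c₁ T x = 0) (w : ℕ)
    (x : Cos Γ) : ζ (T ^ w) x = ∑ j ∈ Finset.range w, ζ T (T ^ j • x) := by
  induction w generalizing x with
  | zero => simp [hζ.one hc₁]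
  | succ n ih =>
    rw [pow_succ, hζ, ih, h1T, zero_mul, add_zero, Finset.sum_range_succ', pow_zero, one_smul]
    congr 1
    refine Finset.sum_congr rfl fun i _ => ?_
    rw [pow_succ, mul_smul]

/-- The value of the twisted kappa at `T`. -/
theorem apply_T (hζ : IsZeta c₁ c₂ ζ)
    (hc₁ : IsCoc Γ c₁) (hc₂ : IsCoc Γ c₂) (Q : Cos Γ → A)
    (h1T : ∀ x, c₁ T x = 0) (hQ : ∀ x, c₂ S x = Q (S • x) - Q x)
    (hζS : ∀ x, ζ S x = c₁ S x * Q (S • x)) (hζU : ∀ x, ζ U x = 0) (x : Cos Γ) :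
    ζ T x = - (c₁ S (T • x) * Q (S • T • x)) := by
  have hUx : U • x = S • T • x := by rw [← mul_smul]
  -- the value of `ζ S⁻¹` at `S • y`
  have hinv : ∀ y, ζ S⁻¹ (S • y) = - ζ S y + c₁ S y * c₂ S y := by
    intro y
    have h := hζ S⁻¹ S y
    rw [inv_mul_cancel, hζ.one hc₁, hc₂.inv, inv_smul_smul] at h
    linear_combination -h
  have h := hζ S⁻¹ U x
  rw [← T_eq_S_inv_mul_U, hζU, hUx, hinv, hc₂.inv, inv_smul_smul, hζS, hQ] at h
  have hU1 : c₁ U x = c₁ S (T • x) := by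
    have := hc₁.apply_T x
    rw [h1T] at this
    exact (sub_eq_zero.mp this.symm)
  rw [h, hU1]
  ring

/-- The sum of the twisted kappa at `T` over all cosets is the coset pairing. -/
theorem sum_T [IsAddTorsionFree A] [Fintype (Cos Γ)] (hζ : IsZeta c₁ c₂ ζ)
    (hneg : (-1 : SL(2, ℤ)) ∈ Γ) (hc₁ : IsCoc Γ c₁) (hc₂ : IsCoc Γ c₂) (Q : Cos Γ → A)
    (h1T : ∀ x, c₁ T x = 0) (hQ : ∀ x, c₂ S x = Q (S • x) - Q x)
    (hζS : ∀ x, ζ S x = c₁ S x * Q (S • x)) (hζU : ∀ x, ζ U x = 0) :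
    ∑ x, ζ T x = ∑ x, c₁ S x * Q x := by
  have h1 : ∑ x, ζ T x = ∑ x, - (c₁ S (T • x) * Q (S • T • x)) :=
    Finset.sum_congr rfl fun x _ => hζ.apply_T hc₁ hc₂ Q h1T hQ hζS hζU x
  have h2 : ∑ x, - (c₁ S (T • x) * Q (S • T • x)) = ∑ y, - (c₁ S y * Q (S • y)) :=
    Equiv.sum_comp (MulAction.toPerm T) (fun y => - (c₁ S y * Q (S • y)))
  have h3 : ∑ y, c₁ S (S • y) * Q (S • y) = ∑ y, c₁ S y * Q y :=
    Equiv.sum_comp (MulAction.toPerm S) (fun y => c₁ S y * Q y)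
  rw [h1, h2, ← h3]
  refine Finset.sum_congr rfl fun y _ => ?_
  have hP : c₁ S (S • y) = - c₁ S y := eq_neg_of_add_eq_zero_left (coc_S_S hneg hc₁ y)
  rw [hP]
  ring

/-- `κ₀ γ := ζ γ base` is a kappa for the pair `(ψ, φ) = (homOfCoc c₂, homOfCoc c₁)`. -/
theorem base_mul (hζ : IsZeta c₁ c₂ ζ) (hc₁ : IsCoc Γ c₁) (hc₂ : IsCoc Γ c₂) (g g' : Γ) :
    ζ ((g : SL(2, ℤ)) * (g' : SL(2, ℤ))) (base Γ) =
      ζ (g : SL(2, ℤ)) (base Γ) + ζ (g' : SL(2, ℤ)) (base Γ) +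
        homOfCoc c₂ hc₂ (Additive.ofMul g) * homOfCoc c₁ hc₁ (Additive.ofMul g') := by
  rw [hζ, smul_base_of_mem g'.2, homOfCoc_apply, homOfCoc_apply]
  ring

/-- **Cusp evaluation.**  If `x = h • base` is fixed by `T ^ w` and `c₂ (T ^ w) x = 0`, the value
of `κ₀` at the cusp generator `h⁻¹ T ^ w h` is the sum of `ζ T` along the `T`-orbit of `x`. -/
theorem cusp (hζ : IsZeta c₁ c₂ ζ) (hc₁ : IsCoc Γ c₁) (hc₂ : IsCoc Γ c₂)
    (h1T : ∀ x, c₁ T x = 0) (h : SL(2, ℤ)) (w : ℕ) (hmem : h⁻¹ * T ^ w * h ∈ Γ)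
    (hpar : c₂ (T ^ w) (h • base Γ) = 0) :
    ζ (h⁻¹ * T ^ w * h) (base Γ) = ∑ j ∈ Finset.range w, ζ T (T ^ j • h • base Γ) := by
  have hfix : T ^ w • h • base Γ = h • base Γ := by
    have := smul_base_of_mem hmem
    rw [mul_smul, mul_smul, inv_smul_eq_iff] at this
    exact this
  have h1Tw : c₁ (T ^ w) (h • base Γ) = 0 := by
    rw [hc₁.pow]
    exact Finset.sum_eq_zero fun i _ => h1T _
  have h0 := hζ h⁻¹ h (base Γ)
  rw [inv_mul_cancel, hζ.one hc₁] at h0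
  rw [hζ (h⁻¹ * T ^ w) h, hζ h⁻¹ (T ^ w), hc₂ h⁻¹ (T ^ w), hfix, h1Tw, hpar,
    ← hζ.T_pow hc₁ h1T]
  linear_combination -h0

/-- The trace of a conjugate of a power of `T` is `2`. -/
theorem trace_conj_T_pow (h : SL(2, ℤ)) (w : ℕ) :
    ((h⁻¹ * T ^ w * h : SL(2, ℤ)) : Matrix (Fin 2) (Fin 2) ℤ).trace = 2 := by
  have e : ((h⁻¹ * T ^ w * h : SL(2, ℤ)) : Matrix (Fin 2) (Fin 2) ℤ) =
      ((h⁻¹ : SL(2, ℤ)) : Matrix (Fin 2) (Fin 2) ℤ) * ((T ^ w : SL(2, ℤ)) : Matrix (Fin 2) (Fin 2) ℤ)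
        * (h : Matrix (Fin 2) (Fin 2) ℤ) := by
    simp [Matrix.SpecialLinearGroup.coe_mul]
  rw [e, Matrix.trace_mul_comm, ← Matrix.mul_assoc, ← Matrix.SpecialLinearGroup.coe_mul,
    mul_inv_cancel, Matrix.SpecialLinearGroup.coe_one, one_mul, ← zpow_natCast, coe_T_zpow]
  simp [Matrix.trace_fin_two]

/-- A parabolic homomorphism vanishes at the cusp generators `h⁻¹ T ^ w h`; in terms of a cocycle:
the `T`-period sums vanish. -/
theorem coc_T_pow_eq_zero_of_parabolic {c : SL(2, ℤ) → Cos Γ → A} (hc : IsCoc Γ c)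
    (hpar : IsParabolicHom Γ (homOfCoc c hc)) (h : SL(2, ℤ)) (w : ℕ)
    (hmem : h⁻¹ * T ^ w * h ∈ Γ) : c (T ^ w) (h • base Γ) = 0 := by
  rw [← homOfCoc_conj c hc (T ^ w) h hmem]
  refine hpar ⟨h⁻¹ * T ^ w * h, hmem⟩ ?_
  change ((h⁻¹ * T ^ w * h : SL(2, ℤ)) : Matrix (Fin 2) (Fin 2) ℤ).trace ^ 2 = 4
  rw [trace_conj_T_pow]
  norm_num

/-- Cusp evaluation for a parabolic `ψ = homOfCoc c₂`. -/
theorem cusp_of_parabolic (hζ : IsZeta c₁ c₂ ζ) (hc₁ : IsCoc Γ c₁) (hc₂ : IsCoc Γ c₂)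
    (h1T : ∀ x, c₁ T x = 0) (hpar : IsParabolicHom Γ (homOfCoc c₂ hc₂)) (h : SL(2, ℤ)) (w : ℕ)
    (hmem : h⁻¹ * T ^ w * h ∈ Γ) :
    ζ (h⁻¹ * T ^ w * h) (base Γ) = ∑ j ∈ Finset.range w, ζ T (T ^ j • h • base Γ) :=
  hζ.cusp hc₁ hc₂ h1T h w hmem (coc_T_pow_eq_zero_of_parabolic hc₂ hpar h w hmem)

end IsZeta

/-! ### The kappa attached to a Heisenberg lift -/

/-- `κ := φ ψ - κ₀`, `κ₀ γ = ζ γ base`, `φ = homOfCoc c₁`, `ψ = homOfCoc c₂`. -/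
def kap {c₁ c₂ : SL(2, ℤ) → Cos Γ → A} (ζ : SL(2, ℤ) → Cos Γ → A) (hc₁ : IsCoc Γ c₁)
    (hc₂ : IsCoc Γ c₂) (γ : Γ) : A :=
  homOfCoc c₁ hc₁ (Additive.ofMul γ) * homOfCoc c₂ hc₂ (Additive.ofMul γ) -
    ζ (γ : SL(2, ℤ)) (base Γ)

section kap

variable {c₁ c₂ ζ : SL(2, ℤ) → Cos Γ → A}

/-- `kap` is a kappa for `(φ, ψ) = (homOfCoc c₁, homOfCoc c₂)`:
`κ (γ γ') = κ γ + κ γ' + φ γ * ψ γ'`. -/
theorem kap_mul (hζ : IsZeta c₁ c₂ ζ) (hc₁ : IsCoc Γ c₁) (hc₂ : IsCoc Γ c₂) (g g' : Γ) :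
    kap ζ hc₁ hc₂ (g * g') = kap ζ hc₁ hc₂ g + kap ζ hc₁ hc₂ g' +
      homOfCoc c₁ hc₁ (Additive.ofMul g) * homOfCoc c₂ hc₂ (Additive.ofMul g') := by
  have h := hζ.base_mul hc₁ hc₂ g g'
  have e1 : homOfCoc c₁ hc₁ (Additive.ofMul (g * g')) =
      homOfCoc c₁ hc₁ (Additive.ofMul g) + homOfCoc c₁ hc₁ (Additive.ofMul g') := by
    rw [ofMul_mul, map_add]
  have e2 : homOfCoc c₂ hc₂ (Additive.ofMul (g * g')) =
      homOfCoc c₂ hc₂ (Additive.ofMul g) + homOfCoc c₂ hc₂ (Additive.ofMul g') := by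
    rw [ofMul_mul, map_add]
  unfold kap
  rw [e1, e2, Subgroup.coe_mul, h]
  ring

/-- The value of `kap` at a cusp generator. -/
theorem kap_cusp (hζ : IsZeta c₁ c₂ ζ) (hc₁ : IsCoc Γ c₁) (hc₂ : IsCoc Γ c₂)
    (h1T : ∀ x, c₁ T x = 0) (hpar : IsParabolicHom Γ (homOfCoc c₂ hc₂)) (h : SL(2, ℤ)) (w : ℕ)
    (hmem : h⁻¹ * T ^ w * h ∈ Γ) :
    kap ζ hc₁ hc₂ ⟨h⁻¹ * T ^ w * h, hmem⟩ =
      - ∑ j ∈ Finset.range w, ζ T (T ^ j • h • base Γ) := by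
  unfold kap
  rw [homOfCoc_conj c₂ hc₂ (T ^ w) h hmem,
    IsZeta.coc_T_pow_eq_zero_of_parabolic hc₂ hpar h w hmem, mul_zero, zero_sub]
  congr 1
  exact hζ.cusp_of_parabolic hc₁ hc₂ h1T hpar h w hmem

end kap

/-! ### The central identity, relative to an orbit decomposition -/

section central

variable [Fintype (Cos Γ)] {J : Type*} [Fintype J]

/-- A family `(h j, w j)` is a *`T`-orbit system* if the points `T ^ i • h j • base`, `i < w j`,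
enumerate the coset space exactly once (expressed through sums) and `T ^ (w j)` fixes
`h j • base`. -/
def IsOrbitSys (Γ : Subgroup SL(2, ℤ)) [Fintype (Cos Γ)] {J : Type*} [Fintype J]
    (h : J → SL(2, ℤ)) (w : J → ℕ) : Prop :=
  (∀ j, (h j)⁻¹ * T ^ w j * h j ∈ Γ) ∧
    ∀ f : Cos Γ → ℤ, ∑ x, f x = ∑ j, ∑ i ∈ Finset.range (w j), f (T ^ i • h j • base Γ)

theorem IsOrbitSys.sum_eq {h : J → SL(2, ℤ)} {w : J → ℕ} (hsys : IsOrbitSys Γ h w)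
    (f : Cos Γ → A) : ∑ x, f x = ∑ j, ∑ i ∈ Finset.range (w j), f (T ^ i • h j • base Γ) := by
  classical
  -- reduce to indicator functions with integer values
  have key : ∀ y : Cos Γ, ∑ j, ∑ i ∈ Finset.range (w j),
      (if T ^ i • h j • base Γ = y then (1 : ℤ) else 0) = 1 := by
    intro y
    have := hsys.2 (fun x => if x = y then (1 : ℤ) else 0)
    rw [← this]
    simp
  have hf : ∀ x, f x = ∑ y, (if x = y then f y else 0) := by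
    intro x; simp
  calc ∑ x, f x = ∑ y, ((1 : ℤ) • f y) := by simp
    _ = ∑ y, (∑ j, ∑ i ∈ Finset.range (w j),
          (if T ^ i • h j • base Γ = y then (1 : ℤ) else 0)) • f y := by
        refine Finset.sum_congr rfl fun y _ => ?_
        rw [key y]
    _ = ∑ y, ∑ j, ∑ i ∈ Finset.range (w j),
          (if T ^ i • h j • base Γ = y then f y else 0) := by
        refine Finset.sum_congr rfl fun y _ => ?_
        rw [Finset.sum_smul]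
        refine Finset.sum_congr rfl fun j _ => ?_
        rw [Finset.sum_smul]
        refine Finset.sum_congr rfl fun i _ => ?_
        split_ifs <;> simp
    _ = ∑ j, ∑ y, ∑ i ∈ Finset.range (w j),
          (if T ^ i • h j • base Γ = y then f y else 0) := Finset.sum_comm
    _ = ∑ j, ∑ i ∈ Finset.range (w j), ∑ y,
          (if T ^ i • h j • base Γ = y then f y else 0) := by
        refine Finset.sum_congr rfl fun j _ => Finset.sum_comm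
    _ = ∑ j, ∑ i ∈ Finset.range (w j), f (T ^ i • h j • base Γ) := by
        refine Finset.sum_congr rfl fun j _ => Finset.sum_congr rfl fun i _ => ?_
        simp

variable {c₁ c₂ ζ : SL(2, ℤ) → Cos Γ → A}

/-- **(D4), for the kappa of the Heisenberg lift**: the coset pairing `∑ x, P x * Q x`
(`P = c₁ S`) equals minus the sum of `kap` over the cusp generators of a `T`-orbit system. -/
theorem sum_mul_eq_neg_sum_kap [IsAddTorsionFree A] (hneg : (-1 : SL(2, ℤ)) ∈ Γ)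
    (hζ : IsZeta c₁ c₂ ζ) (hc₁ : IsCoc Γ c₁) (hc₂ : IsCoc Γ c₂) (Q : Cos Γ → A)
    (h1T : ∀ x, c₁ T x = 0) (hQ : ∀ x, c₂ S x = Q (S • x) - Q x)
    (hζS : ∀ x, ζ S x = c₁ S x * Q (S • x)) (hζU : ∀ x, ζ U x = 0)
    (hpar : IsParabolicHom Γ (homOfCoc c₂ hc₂))
    {h : J → SL(2, ℤ)} {w : J → ℕ} (hsys : IsOrbitSys Γ h w) :
    ∑ x, c₁ S x * Q x = - ∑ j, kap ζ hc₁ hc₂ ⟨(h j)⁻¹ * T ^ w j * h j, hsys.1 j⟩ := by
  rw [← hζ.sum_T hneg hc₁ hc₂ Q h1T hQ hζS hζU, hsys.sum_eq (ζ T), ← Finset.sum_neg_distrib]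
  refine Finset.sum_congr rfl fun j _ => ?_
  rw [kap_cusp hζ hc₁ hc₂ h1T hpar, neg_neg]

/-- For a homomorphism `χ : Γ → A` with torsion-free values, the sum of `χ` over the cusp
generators of a `T`-orbit system vanishes. -/
theorem sum_hom_cusp_eq_zero [IsAddTorsionFree A] (χ : Additive Γ →+ A)
    {h : J → SL(2, ℤ)} {w : J → ℕ} (hsys : IsOrbitSys Γ h w) :
    ∑ j, χ (Additive.ofMul ⟨(h j)⁻¹ * T ^ w j * h j, hsys.1 j⟩) = 0 := by
  have hc := cocOf_isCoc (Γ := Γ) χ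
  have h0 := hc.sum_eq_zero T
  rw [hsys.sum_eq (cocOf Γ χ T)] at h0
  rw [← h0]
  refine Finset.sum_congr rfl fun j _ => ?_
  rw [← hc.pow, ← homOfCoc_conj (cocOf Γ χ) hc (T ^ w j) (h j) (hsys.1 j), homOfCoc_cocOf]

/-- **(D4), intrinsic form**: for ANY `κ : Γ → A` with
`κ (γ γ') = κ γ + κ γ' + φ γ * ψ γ'` (`φ = homOfCoc c₁`, `ψ = homOfCoc c₂`), the coset pairing
`∑ x, P x * Q x` equals minus the sum of `κ` over the cusp generators of a `T`-orbit system. -/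
theorem sum_mul_eq_neg_sum_kappa [IsAddTorsionFree A] (hneg : (-1 : SL(2, ℤ)) ∈ Γ)
    (hc₁ : IsCoc Γ c₁) (hc₂ : IsCoc Γ c₂) (Q : Cos Γ → A)
    (h1T : ∀ x, c₁ T x = 0) (h2U : ∀ x, c₂ U x = 0) (hQ : ∀ x, c₂ S x = Q (S • x) - Q x)
    (hpar : IsParabolicHom Γ (homOfCoc c₂ hc₂))
    {h : J → SL(2, ℤ)} {w : J → ℕ} (hsys : IsOrbitSys Γ h w)
    (κ : Γ → A)
    (hκ : ∀ g g' : Γ, κ (g * g') = κ g + κ g' +
      homOfCoc c₁ hc₁ (Additive.ofMul g) * homOfCoc c₂ hc₂ (Additive.ofMul g')) :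
    ∑ x, c₁ S x * Q x = - ∑ j, κ ⟨(h j)⁻¹ * T ^ w j * h j, hsys.1 j⟩ := by
  obtain ⟨ζ, hζ, hζS, hζU⟩ := exists_zeta hneg hc₁ hc₂ Q h2U hQ
  rw [sum_mul_eq_neg_sum_kap hneg hζ hc₁ hc₂ Q h1T hQ hζS hζU hpar hsys]
  -- the difference of two kappas is a homomorphism
  let χ : Additive Γ →+ A :=
    AddMonoidHom.mk' (fun γ => κ γ.toMul - kap ζ hc₁ hc₂ γ.toMul) (by
      intro a b
      change κ (a.toMul * b.toMul) - kap ζ hc₁ hc₂ (a.toMul * b.toMul) = _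
      rw [hκ, kap_mul hζ hc₁ hc₂]
      abel)
  have h0 := sum_hom_cusp_eq_zero χ hsys
  have h1 : ∀ j, χ (Additive.ofMul ⟨(h j)⁻¹ * T ^ w j * h j, hsys.1 j⟩) =
      κ ⟨(h j)⁻¹ * T ^ w j * h j, hsys.1 j⟩ -
        kap ζ hc₁ hc₂ ⟨(h j)⁻¹ * T ^ w j * h j, hsys.1 j⟩ := fun j => rfl
  simp only [h1, Finset.sum_sub_distrib] at h0
  rw [sub_eq_zero.mp h0]

end central

end

end Fermat.Agent.S41.H57
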